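import Fermat.Agent.LevelRaising.Lattice.Basic
import Fermat.Agent.LevelRaising.IharaK
import Fermat.Agent.LevelRaising.Parabolic
import Mathlib.LinearAlgebra.Matrix.Charpoly.LinearMap

/-!
# A class killed by both degeneracy maps with a prescribed reduction

A parabolic eigenclass of level `N`, nonzero modulo the maximal ideal (of odd residue
characteristic), with `a_ℓ ≢ 1 + ℓ` at an auxiliary prime and `a_q ≡ ± (q + 1)` gives a parabolic
class of level `N q` killed by both maps whose reduction is nonzero with the same eigenvalues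
(`exists_kernel_class`).
-/

set_option autoImplicit false

noncomputable section

namespace Fermat.Agent.LevelRaising

open CongruenceSubgroup Function Fermat.Agent.Periods Polynomial
open ModularCurve.Period

/-! ## The operators on pairs -/

theorem aeval_intertwine {R M M' : Type*} [CommRing R] [AddCommGroup M] [Module R M]
    [AddCommGroup M'] [Module R M'] (g : M →ₗ[R] M') (f : Module.End R M) (f' : Module.End R M')
    (h : ∀ z, g (f z) = f' (g z)) (P : R[X]) (z : M) :
    g (aeval f P z) = aeval f' P (g z) := by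
  induction P using Polynomial.induction_on' with
  | add P Q hP hQ => simp only [map_add, LinearMap.add_apply, hP, hQ]
  | monomial n a =>
    simp only [aeval_monomial, Module.End.mul_apply, Module.algebraMap_end_apply, map_smul]
    congr 1
    induction n generalizing z with
    | zero => simp
    | succ n ih => rw [pow_succ, pow_succ, Module.End.mul_apply, Module.End.mul_apply, ih, h]

/-- `T_ℓ - 1 - ℓ` commutes with maps of the coefficients. -/
theorem tOp_comp {L ℓ : ℕ} [NeZero L] (hℓ : ℓ.Prime) (hℓL : ¬ ℓ ∣ L) (R S : Type*) [Semiring R]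
    [Semiring S] {A A' : Type*} [AddCommGroup A] [AddCommGroup A'] [Module R A] [Module S A']
    (g : A →+ A') (φ : Additive (Gamma0 L) →+ A) :
    tOp hℓ hℓL S (g.comp φ) = g.comp (tOp hℓ hℓL R φ) := by
  rw [tOp_apply, tOp_apply, homT_comp hℓ hℓL ℤ ℤ]
  refine AddMonoidHom.ext fun x => ?_
  simp only [AddMonoidHom.comp_apply, AddMonoidHom.sub_apply, map_sub]
  exact congrArg (_ - ·) (map_nsmul g _ _).symm

variable {q N p ℓ : ℕ} [NeZero N] [NeZero (N * q)] (h : RaiseData q N) (a : AuxPrime q N ℓ)
variable (B : ValuationSubring ℂ)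

local notation "HN" => Additive (Gamma0 N) →+ B
local notation "HM" => Additive (Gamma0 (N * q)) →+ B

/-- both degeneracy operators -/
def iStar : (Additive (Gamma0 (N * q)) →+ B) →ₗ[B]
    (Additive (Gamma0 N) →+ B) × (Additive (Gamma0 N) →+ B) :=
  (h.corSys.op B).prod (h.starSys.op B)

omit [NeZero N] [NeZero (N * q)] in
theorem iStar_apply (x : HM) : iStar h B x = (h.corSys.apply x, h.starSys.apply x) := rfl

/-- `(T_ℓ - 1 - ℓ)` at level `N` on pairs -/
def tPair : Module.End B ((Additive (Gamma0 N) →+ B) × (Additive (Gamma0 N) →+ B)) :=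
  LinearMap.prodMap (tOp a.prime a.not_dvd_left B) (tOp a.prime a.not_dvd_left B)

/-- `(T_ℓ - 1 - ℓ)` at level `Nq` -/
abbrev tBig : Module.End B (Additive (Gamma0 (N * q)) →+ B) := tOp a.prime a.not_dvd B

variable {B}

theorem iStar_tBig (h2 : IsUnit (2 : B)) (x : HM) :
    iStar h B (tBig a B x) = tPair a B (iStar h B x) := by
  have e1 : ∀ y : HM, h.corSys.apply (tBig a B y) =
      tOp a.prime a.not_dvd_left B (h.corSys.apply y) := fun y => by
    show h.corSys.op B (homT a.prime a.not_dvd B y - (1 + ℓ) • y) =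
      homT a.prime a.not_dvd_left B (h.corSys.apply y) - (1 + ℓ) • h.corSys.op B y
    rw [map_sub, map_nsmul, h.homT_cor h2 three_torsionFree a.prime a.not_dvd_left a.not_dvd]
    rfl
  have e2 : ∀ y : HM, h.starSys.apply (tBig a B y) =
      tOp a.prime a.not_dvd_left B (h.starSys.apply y) := fun y => by
    show h.starSys.op B (homT a.prime a.not_dvd B y - (1 + ℓ) • y) =
      homT a.prime a.not_dvd_left B (h.starSys.apply y) - (1 + ℓ) • h.starSys.op B y
    rw [map_sub, map_nsmul, h.homT_star h2 three_torsionFree a.prime a.not_dvd_left a.not_dvd]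
    rfl
  exact Prod.ext (e1 x) (e2 x)

theorem redH_crossHomR (L : ℕ) (u v : Fin 2 → ℚ) :
    redH B (crossHomR B (Gamma0 L) u v) = crossHomR (IsLocalRing.ResidueField B) (Gamma0 L) u v :=
  AddMonoidHom.ext fun x => by
    rw [redH_apply, crossHomR_apply, crossHomR_apply, map_intCast]

/-! ## Pairs in the image of the degeneracy operators -/

omit [NeZero (N * q)] [NeZero N] in
/-- Elements of the reduced image of the degeneracy operators lift. -/
private theorem exists_lift_degImage (z : (Additive (Gamma0 N) →+ IsLocalRing.ResidueField B) ×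
    (Additive (Gamma0 N) →+ IsLocalRing.ResidueField B))
    (hz : z ∈ degImage q N (IsLocalRing.ResidueField B)) :
    ∃ x : HM, redH B (h.corSys.apply x) = z.1 ∧ redH B (h.starSys.apply x) = z.2 := by
  induction hz using Submodule.span_induction with
  | mem z hz =>
    obtain ⟨u, v, -, -, rfl⟩ := hz
    exact ⟨crossHomR B (Gamma0 (N * q)) u v, by rw [h.cor_crossHomR, redH_crossHomR],
      by rw [h.star_crossHomR, redH_crossHomR]⟩
  | zero =>
    exact ⟨0, by rw [show h.corSys.apply (0 : HM) = 0 from map_zero (h.corSys.op B),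
      map_zero]; rfl,
      by rw [show h.starSys.apply (0 : HM) = 0 from map_zero (h.starSys.op B), map_zero]; rfl⟩
  | add z z' _ _ hz hz' =>
    obtain ⟨x, hx1, hx2⟩ := hz
    obtain ⟨x', hx1', hx2'⟩ := hz'
    exact ⟨x + x', by
      rw [show h.corSys.apply (x + x') = _ from map_add (h.corSys.op B) x x', map_add]
      exact congrArg₂ (· + ·) hx1 hx1', by
      rw [show h.starSys.apply (x + x') = _ from map_add (h.starSys.op B) x x', map_add]
      exact congrArg₂ (· + ·) hx2 hx2'⟩
  | smul c z _ hz =>
    obtain ⟨x, hx1, hx2⟩ := hz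
    obtain ⟨c', rfl⟩ := IsLocalRing.residue_surjective c
    exact ⟨c' • x, by
      rw [show h.corSys.apply (c' • x) = _ from map_smul (h.corSys.op B) c' x, redH_smul]
      exact congrArg (_ • ·) hx1, by
      rw [show h.starSys.apply (c' • x) = _ from map_smul (h.starSys.op B) c' x, redH_smul]
      exact congrArg (_ • ·) hx2⟩

omit [NeZero (N * q)] in
/-- A pair with the reduction of an image lies in the image up to the maximal ideal. -/
private theorem mkQ_mem_of_redH {y : HN × HN} {x : HM}
    (e1 : redH B (h.corSys.apply x) = redH B y.1) (e2 : redH B (h.starSys.apply x) = redH B y.2) :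
    (LinearMap.range (iStar h B)).mkQ y ∈ IsLocalRing.maximalIdeal B •
      (⊤ : Submodule B ((HN × HN) ⧸ LinearMap.range (iStar h B))) := by
  set m := IsLocalRing.maximalIdeal B
  have hy : y - iStar h B x ∈ m • (⊤ : Submodule B (HN × HN)) := by
    rw [show y - iStar h B x = LinearMap.inl B HN HN (y.1 - h.corSys.apply x) +
        LinearMap.inr B HN HN (y.2 - h.starSys.apply x) by
      ext1 <;> simp [iStar_apply]]
    refine add_mem ?_ ?_
    · have := Submodule.mem_map_of_mem (f := LinearMap.inl B HN HN)
        (mem_smul_top_of_redH (y.1 - h.corSys.apply x) (by rw [map_sub, e1, sub_self]))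
      rw [Submodule.map_smul''] at this
      exact Submodule.smul_mono le_rfl le_top this
    · have := Submodule.mem_map_of_mem (f := LinearMap.inr B HN HN)
        (mem_smul_top_of_redH (y.2 - h.starSys.apply x) (by rw [map_sub, e2, sub_self]))
      rw [Submodule.map_smul''] at this
      exact Submodule.smul_mono le_rfl le_top this
  have h1 := Submodule.mem_map_of_mem (f := (LinearMap.range (iStar h B)).mkQ) hy
  rw [Submodule.map_smul'', Submodule.map_top, Submodule.range_mkQ, map_sub,
    Submodule.mkQ_apply _ (iStar h B x), (Submodule.Quotient.mk_eq_zero _).mpr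
    (LinearMap.mem_range_self
        (iStar h B) x),
    sub_zero] at h1
  exact h1

omit [NeZero (N * q)] in
/-- The square of `T_ℓ - 1 - ℓ` maps pairs into the image of the degeneracy operators modulo the
maximal ideal. -/
theorem range_tPair_sq (hp : p.Prime) (hp2 : p ≠ 2) (hpB : (p : B) ∈ IsLocalRing.maximalIdeal B)
    (z : HN × HN) :
    (LinearMap.range (iStar h B)).mkQ ((tPair a B * tPair a B) z) ∈
      IsLocalRing.maximalIdeal B •
        (⊤ : Submodule B ((HN × HN) ⧸ LinearMap.range (iStar h B))) := by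
  have h2 := isUnit_two hp hp2 hpB
  have := charP_residueField hp hpB
  set K := IsLocalRing.ResidueField B
  set m := IsLocalRing.maximalIdeal B
  set S := Submodule.comap ((LinearMap.range (iStar h B)).mkQ ∘ₗ (tPair a B * tPair a B))
    (m • (⊤ : Submodule B ((HN × HN) ⧸ LinearMap.range (iStar h B))))
  -- the generators
  have hgen : ∀ u v : Fin 2 → ℚ, u ≠ 0 → v ≠ 0 →
      (crossHomR B (Gamma0 N) u v, (0 : HN)) ∈ S ∧ ((0 : HN), crossHomR B (Gamma0 N) u v) ∈ S := by
    intro u v hu hv
    obtain ⟨m1, m2⟩ := h.tOp_tOp_mem_degImage (K := K) a hp hp2 hu hv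
    have hred : ∀ φ : HN, redH B (tOp a.prime a.not_dvd_left B φ) =
        tOp a.prime a.not_dvd_left K (redH B φ) := fun φ => (tOp_comp _ _ B K _ φ).symm
    constructor
    · obtain ⟨x, e1, e2⟩ := exists_lift_degImage h _ m1
      refine mkQ_mem_of_redH h (x := x) ?_ ?_
      · rw [e1]; simp [tPair, hred, redH_crossHomR, K]
      · rw [e2]; simp [tPair]
    · obtain ⟨x, e1, e2⟩ := exists_lift_degImage h _ m2
      refine mkQ_mem_of_redH h (x := x) ?_ ?_
      · rw [e1]; simp [tPair]
      · rw [e2]; simp [tPair, hred, redH_crossHomR, K]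
  have : Fintype (Matrix.SpecialLinearGroup (Fin 2) ℤ ⧸ Gamma0 N) :=
    Subgroup.fintypeQuotientOfFiniteIndex
  have hspan := span_crossHomR_eq_top B (Fermat.Agent.Gamma0.neg_one_mem_Gamma0 N) h2
    three_torsionFree
  have htop1 : ∀ φ : HN, (φ, (0 : HN)) ∈ S ∧ ((0 : HN), φ) ∈ S := by
    intro φ
    have hφ : φ ∈ Submodule.span B (Set.range fun x : Matrix.SpecialLinearGroup
        (Fin 2) ℤ ⧸ Gamma0 N =>
        crossHomR B (Gamma0 N) (act x.out⁻¹ cuspInf) (act x.out⁻¹ cuspZero)) :=
      hspan ▸ Submodule.mem_top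
    induction hφ using Submodule.span_induction with
    | mem y hy =>
      obtain ⟨x, rfl⟩ := hy
      exact hgen _ _ (act_ne_zero _ basisVec_ne_zero)
        (act_ne_zero _ fun h0 => by simpa [cuspZero] using congrFun h0 1)
    | zero => exact ⟨zero_mem S, zero_mem S⟩
    | add y y' _ _ hy hy' =>
      exact ⟨by simpa using add_mem hy.1 hy'.1, by simpa using add_mem hy.2 hy'.2⟩
    | smul c y _ hy =>
      exact ⟨by simpa using S.smul_mem c hy.1, by simpa using S.smul_mem c hy.2⟩
  have : z ∈ S := by
    rw [show z = (z.1, 0) + (0, z.2) by simp]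
    exact add_mem (htop1 z.1).1 (htop1 z.2).2
  exact this

omit [NeZero (N * q)] [NeZero N] in
/-- If `T_q w = b w` and `e² = 1`, the two degeneracy operators send `res w + e • conj w` to
`(q + 1 + e b) (w, e w)`. -/
private theorem iStar_res_add_conj (w : HN) {b : B}
    (hTq : homT h.prime h.not_dvd B w = b • w) {e : ℤ} (he : e * e = 1) :
    iStar h B ((RaiseData.resSys q N).apply w + e • h.conjSys.apply w) =
      (((q : B) + 1) + (e : B) * b) • (w, e • w) := by
  have he' : (e : B) * (e : B) = 1 := by exact_mod_cast congrArg (Int.cast : ℤ → B) he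
  refine Prod.ext ?_ ?_
  · show h.corSys.op B _ = (((q : B) + 1) + (e : B) * b) • w
    rw [map_add, map_zsmul]
    show h.corSys.apply ((RaiseData.resSys q N).apply w)
      + e • h.corSys.apply (h.conjSys.apply w) = _
    rw [h.cor_res, h.cor_conj B, hTq]
    module
  · show h.starSys.op B _ = (((q : B) + 1) + (e : B) * b) • e • w
    rw [map_add, map_zsmul]
    show h.starSys.apply ((RaiseData.resSys q N).apply w)
      + e • h.starSys.apply (h.conjSys.apply w) = _
    rw [h.star_res B, h.star_conj, hTq]
    match_scalars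
    linear_combination (-b) * he'

include h in
/-- A polynomial congruent to a power of `X` carries all pairs, through the square of
`T_ℓ - 1 - ℓ`, into the image of the degeneracy operators. -/
private theorem exists_aeval_tPair_sq_mem (hp : p.Prime) (hp2 : p ≠ 2)
    (hpB : (p : B) ∈ IsLocalRing.maximalIdeal B) :
    ∃ P : B[X], P.map (IsLocalRing.residue B) = X ^ P.natDegree ∧
      ∀ z : HN × HN, aeval (tPair a B * tPair a B) P z ∈ LinearMap.range (iStar h B) := by
  have h2 := isUnit_two hp hp2 hpB
  have : Fintype (Matrix.SpecialLinearGroup (Fin 2) ℤ ⧸ Gamma0 N) :=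
    Subgroup.fintypeQuotientOfFiniteIndex
  have : Module.Finite B HN := finite_hom B (Fermat.Agent.Gamma0.neg_one_mem_Gamma0 N) h2
    three_torsionFree
  set T2 : Module.End B (HN × HN) := tPair a B * tPair a B with hT2
  set f : Module.End B ((HN × HN) ⧸ LinearMap.range (iStar h B)) :=
    Submodule.mapQ _ _ T2 (by
      rintro _ ⟨y, rfl⟩
      exact ⟨(tBig a B * tBig a B) y, by
        rw [hT2, Module.End.mul_apply, Module.End.mul_apply, iStar_tBig h a h2,
          iStar_tBig h a h2]⟩) with hf
  have hfr : LinearMap.range f ≤ IsLocalRing.maximalIdeal B • ⊤ := by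
    rintro _ ⟨y, rfl⟩
    obtain ⟨y, rfl⟩ := Submodule.Quotient.mk_surjective _ y
    exact range_tPair_sq h a hp hp2 hpB y
  obtain ⟨P, hPm, -, hPc, hP0⟩ :=
    LinearMap.exists_monic_and_natDegree_eq_and_coeff_mem_pow_and_aeval_eq_zero B f _ hfr
  refine ⟨P, Polynomial.ext fun k => ?_, fun z => ?_⟩
  · rw [coeff_map, coeff_X_pow]
    rcases lt_trichotomy k P.natDegree with hk | hk | hk
    · rw [if_neg hk.ne, IsLocalRing.residue_eq_zero_iff]
      exact Ideal.pow_le_self (by omega) (hPc k)
    · rw [hk, if_pos rfl, hPm.coeff_natDegree, map_one]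
    · rw [if_neg hk.ne', coeff_eq_zero_of_natDegree_lt hk, map_zero]
  · rw [← Submodule.Quotient.mk_eq_zero]
    have := aeval_intertwine (LinearMap.range (iStar h B)).mkQ T2 f (fun _ => rfl) P z
    rw [Submodule.mkQ_apply, hP0] at this
    exact this

/-! ## The class in the kernel -/

omit [NeZero N] [NeZero (N * q)] in
/-- An eigenclass of `T_ℓ` is an eigenclass of `T_ℓ - 1 - ℓ`. -/
private theorem tOp_eq_smul {L : ℕ} [NeZero L] {r : ℕ} (hr : r.Prime) (hrL : ¬ r ∣ L) {K : Type*}
    [CommRing K] {φ : Additive (Gamma0 L) →+ K} {b : K} (hb : homT hr hrL K φ = b • φ) :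
    tOp hr hrL K φ = (b - (1 + r)) • φ := by
  show homT hr hrL K φ - (1 + r) • φ = _
  rw [hb, sub_smul, ← Nat.cast_smul_eq_nsmul K, Nat.cast_add, Nat.cast_one]

omit [NeZero N] in
/-- Polynomials in the square of `T_ℓ - 1 - ℓ` act on the reduction of an eigenclass by scalars. -/
private theorem redH_aeval_tBig_sq {x : HM} {c : IsLocalRing.ResidueField B}
    (hx : tOp a.prime a.not_dvd (IsLocalRing.ResidueField B) (redH B x) = c • redH B x)
    (Q : B[X]) : redH B (aeval (tBig a B * tBig a B) Q x) =
      (Q.map (IsLocalRing.residue B)).eval (c ^ 2) • redH B x := by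
  have htx : ∀ φ : HM, ∀ d : IsLocalRing.ResidueField B, redH B φ = d • redH B x →
      redH B (tBig a B φ) = (c * d) • redH B x := fun φ d hd => by
    rw [show redH B (tBig a B φ) =
        tOp a.prime a.not_dvd (IsLocalRing.ResidueField B) (redH B φ) from
      (tOp_comp _ _ B _ _ φ).symm, hd, map_smul, hx, smul_smul, mul_comm d c]
  have hpow : ∀ n, redH B (((tBig a B * tBig a B) ^ n) x) = (c ^ (2 * n)) • redH B x := by
    intro n
    induction n with
    | zero => simp
    | succ n ih =>
      rw [pow_succ', Module.End.mul_apply, Module.End.mul_apply, htx _ _ (htx _ _ ih)]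
      congr 1
      ring
  induction Q using Polynomial.induction_on' with
  | add Q Q' hQ hQ' => simp only [map_add, LinearMap.add_apply, Polynomial.map_add, eval_add,
      add_smul, hQ, hQ']
  | monomial n b =>
    rw [aeval_monomial, Module.End.mul_apply, Module.algebraMap_end_apply, redH_smul, hpow,
      smul_smul, map_monomial, eval_monomial, pow_mul]

omit [NeZero N] [NeZero (N * q)] in
/-- `res φ + e • conj φ` has the eigenvalues of `φ` away from `N q`. -/
private theorem homT_res_add_conj {r : ℕ} (hr : r.Prime) (hrM : ¬ r ∣ N * q)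
    {K : Type*} [CommRing K] {φ : Additive (Gamma0 N) →+ K} {b : K}
    (hb : homT hr (fun hd => hrM (hd.mul_right q)) K φ = b • φ) (e : ℤ) :
    homT hr hrM K ((RaiseData.resSys q N).apply φ + e • h.conjSys.apply φ) =
      b • ((RaiseData.resSys q N).apply φ + e • h.conjSys.apply φ) := by
  have hrN : ¬ r ∣ N := fun hd => hrM (hd.mul_right q)
  rw [map_add, map_zsmul, homT_res K hr hrN hrM, h.homT_conj K hr hrN hrM, hb,
    show (RaiseData.resSys q N).apply (b • φ) = _ from map_smul ((RaiseData.resSys q N).op K) _ _,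
    show h.conjSys.apply (b • φ) = _ from map_smul (h.conjSys.op K) _ _, smul_add, smul_comm e]
  rfl

include a in
/-- The key construction: if a parabolic eigenclass of level `N`, not zero mod the maximal ideal,
has `a_ℓ ≢ 1 + ℓ` at the auxiliary prime and `a_q ≡ ± (q + 1)`, some parabolic class of level
`N q` killed by both degeneracy operators reduces to a nonzero class with the same eigenvalues. -/
theorem exists_kernel_class (hp : p.Prime) (hp2 : p ≠ 2)
    (hpB : (p : B) ∈ IsLocalRing.maximalIdeal B)
    (w : HN) (hw : IsParabolicHom (Gamma0 N) w) (hw0 : redH B w ≠ 0)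
    (ev : ℕ → B) (heig : ∀ r (hr : r.Prime) (hrN : ¬ r ∣ N), homT hr hrN B w = ev r • w)
    (hℓev : IsLocalRing.residue B (ev ℓ - (1 + ℓ)) ≠ 0)
    (e : ℤ) (he : e * e = 1)
    (hqev : IsLocalRing.residue B (((q : B) + 1) + (e : B) * ev q) = 0) :
    ∃ k0 : HM, h.corSys.apply k0 = 0 ∧ h.starSys.apply k0 = 0 ∧
      IsParabolicHom (Gamma0 (N * q)) k0 ∧ redH B k0 ≠ 0 ∧
      ∀ r (hr : r.Prime) (hrM : ¬ r ∣ N * q),
        homT hr hrM (IsLocalRing.ResidueField B) (redH B k0) =
          IsLocalRing.residue B (ev r) • redH B k0 := by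
  have h2 := isUnit_two hp hp2 hpB
  have := charP_residueField hp hpB
  set K := IsLocalRing.ResidueField B
  set x : HM := (RaiseData.resSys q N).apply w + e • h.conjSys.apply w with hx
  set π : B := ((q : B) + 1) + (e : B) * ev q
  -- the class killed by both operators
  have hix : iStar h B x = π • (w, e • w) :=
    iStar_res_add_conj h w (heig q h.prime h.not_dvd) he
  obtain ⟨P, hPbar, hPmem⟩ := exists_aeval_tPair_sq_mem h a hp hp2 hpB
  obtain ⟨z', hz'⟩ := hPmem (w, e • w)
  have hT2 : ∀ y, iStar h B ((tBig a B * tBig a B) y) = (tPair a B * tPair a B) (iStar h B y) :=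
    fun y => by
      rw [Module.End.mul_apply, Module.End.mul_apply, iStar_tBig h a h2, iStar_tBig h a h2]
  set y : HM := aeval (tBig a B * tBig a B) P x - π • z' with hy
  have hiy : iStar h B y = 0 := by
    rw [hy, map_sub, map_smul, aeval_intertwine (iStar h B) _ _ hT2, hix, map_smul, hz', sub_self]
  refine ⟨tBig a B y, ?_, ?_, ?_, ?_⟩
  · have := congrArg Prod.fst (iStar_tBig h a h2 y)
    rw [hiy, map_zero] at this
    exact this
  · have := congrArg Prod.snd (iStar_tBig h a h2 y)
    rw [hiy, map_zero] at this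
    exact this
  · intro γ hγ
    rw [show tBig a B y = homT a.prime a.not_dvd ℤ y - (1 + ℓ) • y from tOp_apply _ _ B y,
      AddMonoidHom.sub_apply, AddMonoidHom.smul_apply]
    have : NeZero ℓ := ⟨a.prime.ne_zero⟩
    rw [homT_apply_parabolic a.prime a.not_dvd a.dvd_sub' nsmul_eq_zero_imp y γ hγ, sub_self]
  -- reductions
  have hwK : IsParabolicHom (Gamma0 N) (redH B w) := fun γ hγ => by
    rw [redH_apply, hw γ hγ, map_zero]
  set c : K := IsLocalRing.residue B (ev ℓ - (1 + ℓ)) with hc
  have hcK : c = IsLocalRing.residue B (ev ℓ) - (1 + ℓ) := by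
    rw [hc, map_sub, map_add, map_one, map_natCast]
  have hredT : ∀ r (hr : r.Prime) (hrN : ¬ r ∣ N),
      homT hr hrN K (redH B w) = IsLocalRing.residue B (ev r) • redH B w := fun r hr hrN => by
    rw [← redH_smul, ← heig r hr hrN]
    exact homT_comp hr hrN B K _ w
  have hev : tOp a.prime a.not_dvd_left K (redH B w) = c • redH B w := by
    rw [hcK, tOp_eq_smul _ _ (hredT ℓ a.prime a.not_dvd_left)]
  have hxbar : redH B x = (RaiseData.resSys q N).apply (redH B w)
      + e • h.conjSys.apply (redH B w) := by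
    rw [hx, map_add, map_zsmul]
    simp only [redH, AddMonoidHom.compHom_apply_apply, HeckeSystem.apply_comp]
  have hx0 : redH B x ≠ 0 := by
    rw [hxbar]
    exact h.res_add_conj_ne_zero a hp hp2 hwK hw0 hℓev hev e
  have hxeig : ∀ r (hr : r.Prime) (hrM : ¬ r ∣ N * q),
      homT hr hrM K (redH B x) = IsLocalRing.residue B (ev r) • redH B x := fun r hr hrM => by
    rw [hxbar]
    exact homT_res_add_conj h hr hrM (hredT r hr _) e
  have hxT : tOp a.prime a.not_dvd K (redH B x) = c • redH B x := by
    rw [hcK, tOp_eq_smul _ _ (hxeig ℓ a.prime a.not_dvd)]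
  have hk : redH B (tBig a B y) = (c * (c ^ 2) ^ P.natDegree) • redH B x := by
    rw [show redH B (tBig a B y) = tOp a.prime a.not_dvd K (redH B y) from
        (tOp_comp _ _ B K _ y).symm, hy, map_sub (redH B), redH_smul, hqev, zero_smul, sub_zero,
      redH_aeval_tBig_sq a hxT, hPbar, eval_pow, eval_X, map_smul, hxT, smul_smul,
      mul_comm _ c]
  refine ⟨?_, fun r hr hrM => ?_⟩
  · rw [hk]
    exact smul_ne_zero (mul_ne_zero hℓev (pow_ne_zero _ (pow_ne_zero _ hℓev))) hx0
  · rw [hk, map_smul, hxeig r hr hrM, smul_comm]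

end Fermat.Agent.LevelRaising
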